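/-
S55 / 46-P6-PLACEV (helper32), generic part: an orbit section (`ShapiroLevel32.OrbSect`) whose
representatives are the inverses of a given system `R` of representatives of the double cosets
`r(H) \ G / π.ker` (`Idele73.Mackey.IsRepr`).
-/
import Fermat.Agent.S55.ShapiroLevel32.Orbit
import Fermat.Agent.S55.Idele73.Mackey

set_option autoImplicit false
set_option linter.unusedSectionVars false

namespace Fermat.Agent.S55.KummerSq32

open Fermat.Agent.S55.ShapiroLevel32 Fermat.Agent.S55.Idele73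

variable {G Γ H : Type} [Group G] [Group Γ] [Group H]
  (π : G →* Γ) (hπ : Function.Surjective π) (r : H →* G) (R : Finset G)
  (hR : Mackey.IsRepr r π.ker R)

include hπ hR in
lemma exists_repr_data (δ : Γ) : ∃ x ∈ R, ∃ τ : H, δ = π x⁻¹ * π (r τ) := by
  obtain ⟨g, rfl⟩ := hπ δ
  obtain ⟨x, hx, τ, h, e⟩ := hR.1 g⁻¹
  refine ⟨x, hx, τ⁻¹, ?_⟩
  have hh : π (h : G) = 1 := MonoidHom.mem_ker.1 h.2
  have hg : g = (h : G)⁻¹ * x⁻¹ * (r τ)⁻¹ := by
    rw [← inv_inj, e]; group
  rw [hg, map_mul, map_mul, map_inv π (h : G), hh, inv_one, one_mul, map_inv r]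

include hR in
lemma repr_unique {x x' : G} (hx : x ∈ R) (hx' : x' ∈ R) {τ τ' : H}
    (h : π x⁻¹ * π (r τ) = π x'⁻¹ * π (r τ')) : x = x' := by
  refine hR.2 x hx x' hx' ⟨τ' * τ⁻¹, ⟨(r (τ' * τ⁻¹) * x)⁻¹ * x', ?_⟩, ?_⟩
  · rw [MonoidHom.mem_ker, map_mul, map_inv, map_mul, map_mul, map_inv r]
    have h1 : π x' = π (r τ') * (π (r τ))⁻¹ * π x := by
      have h2 : (π x'⁻¹)⁻¹ = (π x⁻¹ * π (r τ) * (π (r τ'))⁻¹)⁻¹ := by
        rw [h]; group
      rw [map_inv, inv_inv] at h2
      rw [h2, map_inv]; group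
    rw [h1, map_mul π (r τ'), map_inv]; group
  · show x' = r (τ' * τ⁻¹) * x * ((r (τ' * τ⁻¹) * x)⁻¹ * x')
    group

/-- the representative in `R` attached to `δ : Γ` -/
noncomputable def repX (δ : Γ) : G := (exists_repr_data π hπ r R hR δ).choose

lemma repX_mem (δ : Γ) : repX π hπ r R hR δ ∈ R :=
  (exists_repr_data π hπ r R hR δ).choose_spec.1

/-- the chosen element moving the representative to `δ` -/
noncomputable def repS (δ : Γ) : H := (exists_repr_data π hπ r R hR δ).choose_spec.2.choose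

lemma repX_spec (δ : Γ) : δ = π (repX π hπ r R hR δ)⁻¹ * π (r (repS π hπ r R hR δ)) :=
  (exists_repr_data π hπ r R hR δ).choose_spec.2.choose_spec

lemma repX_eq {δ : Γ} {x : G} (hx : x ∈ R) {τ : H} (h : δ = π x⁻¹ * π (r τ)) :
    repX π hπ r R hR δ = x :=
  repr_unique π r R hR (repX_mem π hπ r R hR δ) hx ((repX_spec π hπ r R hR δ).symm.trans h)

lemma repX_mul (δ : Γ) (g : H) :
    repX π hπ r R hR (δ * π (r g)) = repX π hπ r R hR δ := by
  refine repX_eq π hπ r R hR (repX_mem π hπ r R hR δ) (τ := repS π hπ r R hR δ * g) ?_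
  conv_lhs => rw [repX_spec π hπ r R hR δ]
  rw [map_mul r, map_mul π, mul_assoc]

lemma repX_inv (x : G) (hx : x ∈ R) : repX π hπ r R hR (π x⁻¹) = x :=
  repX_eq π hπ r R hR hx (τ := 1) (by rw [map_one, map_one, mul_one])

open Classical in
/-- **the orbit section attached to a system of double coset representatives** -/
noncomputable def orbSectOfRepr : OrbSect (π.comp r) where
  rep δ := π (repX π hπ r R hR δ)⁻¹
  s δ := if π (repX π hπ r R hR δ)⁻¹ = δ then 1 else repS π hπ r R hR δ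
  rep_mul δ g := by
    show π (repX π hπ r R hR (δ * π (r g)))⁻¹ = _
    rw [repX_mul]
  rep_s δ := by
    by_cases h : π (repX π hπ r R hR δ)⁻¹ = δ
    · rw [if_pos h, map_one, mul_one, h]
    · rw [if_neg h]
      exact (repX_spec π hπ r R hR δ).symm
  s_rep δ := by
    rw [if_pos]
    rw [repX_inv π hπ r R hR _ (repX_mem π hπ r R hR δ)]

@[simp] lemma orbSectOfRepr_rep (δ : Γ) :
    (orbSectOfRepr π hπ r R hR).rep δ = π (repX π hπ r R hR δ)⁻¹ := rfl

/-- the representatives of the orbit section are the classes of the inverses of `R` -/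
noncomputable def reprEquiv : ↥R ≃ (orbSectOfRepr π hπ r R hR).R where
  toFun x := ⟨π (x : G)⁻¹, by
    show π (repX π hπ r R hR (π (x : G)⁻¹))⁻¹ = _
    rw [repX_inv π hπ r R hR _ x.2]⟩
  invFun ρ := ⟨repX π hπ r R hR (ρ : Γ), repX_mem π hπ r R hR _⟩
  left_inv x := Subtype.ext (repX_inv π hπ r R hR _ x.2)
  right_inv ρ := Subtype.ext ρ.2

@[simp] lemma coe_reprEquiv (x : ↥R) :
    ((reprEquiv π hπ r R hR x : (orbSectOfRepr π hπ r R hR).R) : Γ) = π (x : G)⁻¹ := rfl

@[simp] lemma coe_reprEquiv_symm (ρ : (orbSectOfRepr π hπ r R hR).R) :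
    (((reprEquiv π hπ r R hR).symm ρ : ↥R) : G) = repX π hπ r R hR (ρ : Γ) := rfl

/-- the lifts of the representatives: the inverses of the elements of `R` -/
noncomputable def tOfRepr (ρ : (orbSectOfRepr π hπ r R hR).R) : G :=
  (((reprEquiv π hπ r R hR).symm ρ : ↥R) : G)⁻¹

lemma π_tOfRepr (ρ : (orbSectOfRepr π hπ r R hR).R) : π (tOfRepr π hπ r R hR ρ) = (ρ : Γ) :=
  ρ.2

noncomputable instance : Fintype (orbSectOfRepr π hπ r R hR).R :=
  Fintype.ofEquiv ↥R (reprEquiv π hπ r R hR)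

end Fermat.Agent.S55.KummerSq32
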