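/-
S55 / 46-KUMMER-SQUARE (helper32): the local Kummer squares at the places `PlaceV S V hV`
(helper94 `GlobalMod94.OpenJS`) of the fixed field of an open subgroup `V ≤ G_ℚ`.
-/
import Fermat.Agent.S55.GlobalMod94.OpenJS
import Fermat.Agent.S55.S1Limit41.Global

set_option autoImplicit false
set_option linter.style.haveILetI false
set_option linter.unusedSectionVars false

open CategoryTheory groupCohomology ExtCitation

namespace Fermat.Agent.S55.KummerSq32

open Fermat.Agent.S55.Profin15 Fermat.Agent.S55.Profin15.LevelStr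
open Fermat.Agent.S55.CD3 Fermat.Agent.S55.CS79.Smooth Fermat.Agent.S55.Idele73
open Fermat.Agent.S55.Idele73.Basic
open Fermat.Agent.S55.JSH2_64 Fermat.Agent.S55.GlobalMod94.Generic
open Fermat.Agent.S55.GlobalMod94.ExplicitShapiro Fermat.Agent.S55.GlobalMod94.LimitMackey
open Fermat.Agent.S55.GlobalMod94.OpenDatum Fermat.Agent.S55.GlobalMod94.JS
open Fermat.Agent.S55.GlobalMod94.OpenJS
open Fermat.Agent.S55.ESRep20 Fermat.Agent.S55.ESKummer20
open Fermat.Agent.S55.S1Limit41.Global

variable {p : ℕ} [Fact p.Prime] (S : Finset Nat.Primes) (V : Subgroup GQ)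
  (hV : IsOpenSub (globalLevels S) V) (hpS : pPrime p ∈ S)

/-- `μ_p` as a module over the decomposition group `G_w` (restricted along `t ↦ x⁻¹ r(t) x`) -/
noncomputable abbrev ZW (p : ℕ) [Fact p.Prime] (w : PlaceV S V hV) :
    Rep.{0} ℤ ↥(Mackey.twSub (rS S w.1) V (w.2 : GQ)) :=
  Rep.res (Mackey.twHom (rS S w.1) V (w.2 : GQ)) (ZV V p)

/-- `H²(G_w, μ_p)` -/
abbrev YZ (p : ℕ) [Fact p.Prime] (w : PlaceV S V hV) : Type :=
  (𝒱S S V w.1 (w.2 : GQ)).H2 (ZW S V hV p w)

/-- the localisation `H²(V, μ_p) → H²(G_w, μ_p)` -/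
noncomputable def locZ (p : ℕ) [Fact p.Prime] (w : PlaceV S V hV) :
    (levV S V hV).H2 (ZV V p) →+ YZ S V hV p w :=
  ((hcontS S V hV w.1 (w.2 : GQ)).res₂ (ZV V p)).toAddMonoidHom

/-- the composite `μ_p → E_S → J_S` over `V` -/
noncomputable def muToJ : (ZV V p) →ₗ[ℤ] (JV S V) :=
  (resLin (A := ESRep S) (B := JSp S) V.subtype (ιES S).hom.toLinearMap) ∘ₗ
    (resLin (A := muRep p) (B := ESRep S) V.subtype (kummerι' (S := S) hpS).hom.toLinearMap)


theorem muToJ_equivariant : IsEquivariant (A := ZV V p) (B := JV S V) (muToJ S V hpS) :=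
  (kummerV S V hpS).equivariant_left.comp (ideleV S V (nonempty_of_mem S hpS)).equivariant_left

/-- the `w`-component of the limit module `Res_V J_S`: project to the `q`-factor, then to the
Mackey component of the representative `x` -/
noncomputable def prW (w : PlaceV S V hV) :
    (JV S V) →ₗ[ℤ] (Jx (globalLevels S) (rS S w.1) (AS S w.1) V hV (w.2 : GQ)) :=
  (prx (globalLevels S) (rS S w.1) (AS S w.1) V hV (w.2 : GQ)) ∘ₗ
    (pri (globalLevels S) (rS S) (AS S) V w.1)

theorem prW_equivariant (w : PlaceV S V hV) :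
    IsEquivariant (A := JV S V) (B := Jx (globalLevels S) (rS S w.1) (AS S w.1) V hV (w.2 : GQ))
      (prW S V hV w) :=
  (pri_equivariant (globalLevels S) (rS S) (AS S) V w.1).comp
    (prx_equivariant (globalLevels S) (rS S w.1) (AS S w.1) V hV (w.2 : GQ))

/-- **the Kummer map at the place `w`** on coefficients:
`μ_p → E_S → J_S → (w-component) → ℚ̄_qˣ` -/
noncomputable def kumLin (w : PlaceV S V hV) :
    (ZW S V hV p w) →ₗ[ℤ] (Ax (rS S w.1) (AS S w.1) V (w.2 : GQ)) :=
  (Limit.ev (restrictLevels (globalLevels S) V hV) (Mackey.twHom (rS S w.1) V (w.2 : GQ))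
      (Ax (rS S w.1) (AS S w.1) V (w.2 : GQ))) ∘ₗ
    (resLin (A := ZV V p)
      (B := Jx (globalLevels S) (rS S w.1) (AS S w.1) V hV (w.2 : GQ))
      (Mackey.twHom (rS S w.1) V (w.2 : GQ))
      ((prW S V hV w) ∘ₗ (muToJ S V hpS)))

theorem kumLin_equivariant (w : PlaceV S V hV) :
    IsEquivariant (A := ZW S V hV p w) (B := Ax (rS S w.1) (AS S w.1) V (w.2 : GQ))
      (kumLin S V hV hpS w) :=
  (((muToJ_equivariant S V hpS).comp (prW_equivariant S V hV w)).res
      (Mackey.twHom (rS S w.1) V (w.2 : GQ))).comp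
    (Limit.isEquivariant_ev (restrictLevels (globalLevels S) V hV)
      (Mackey.twHom (rS S w.1) V (w.2 : GQ)) (Ax (rS S w.1) (AS S w.1) V (w.2 : GQ)))

/-- **the Kummer map at the place `w`**: `H²(G_w, μ_p) → Br_w` -/
noncomputable def kumW (w : PlaceV S V hV) : YZ S V hV p w →+ BrW S V hV w :=
  ((𝒱S S V w.1 (w.2 : GQ)).H2map (kumLin S V hV hpS w)
    (kumLin_equivariant S V hV hpS w)).toAddMonoidHom

/-- **the local Kummer square at the place `w`** (= the binder `hcomm` of
`S1Limit41.Global.sha2_iffV` / `range_loc_iffV`, verbatim) -/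
theorem hcomm (w : PlaceV S V hV) (a : (levV S V hV).H2 (ZV V p)) :
    kumW S V hV hpS w (locZ S V hV p w a) =
      (locW S V hV w).toAddMonoidHom
        ((levV S V hV).H2map _ (ideleV S V (nonempty_of_mem S hpS)).equivariant_left
          ((levV S V hV).H2map _ (kummerV S V hpS).equivariant_left a)) := by
  obtain ⟨c, rfl⟩ := Submodule.Quotient.mk_surjective _ a
  rfl

end Fermat.Agent.S55.KummerSq32
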