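/-
S55 / 46-KUMMER-SQUARE (helper32), part (K3): the Kummer map `H²(G_w, μ_p) → Br_w` at a place
`w ∈ PlaceV S V hV` is injective (local Hilbert 90 + the local Kummer sequence).
-/
import Fermat.Agent.S55.KummerSq32.Square
import Fermat.Agent.S55.RecipLoc69.Hloc

set_option autoImplicit false
set_option linter.style.haveILetI false
set_option linter.unusedSectionVars false

open CategoryTheory groupCohomology ExtCitation

namespace Fermat.Agent.S55.KummerSq32

open Fermat.Agent.S55.Profin15 Fermat.Agent.S55.Profin15.LevelStr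
open Fermat.Agent.S55.CD3 Fermat.Agent.S55.CS79.Smooth Fermat.Agent.S55.Idele73
open Fermat.Agent.S55.Idele73.Basic
open Fermat.Agent.S55.JSH2_64 Fermat.Agent.S55.GlobalMod94.Generic
open Fermat.Agent.S55.GlobalMod94.ExplicitShapiro Fermat.Agent.S55.GlobalMod94.LimitMackey
open Fermat.Agent.S55.GlobalMod94.OpenDatum Fermat.Agent.S55.GlobalMod94.JS
open Fermat.Agent.S55.GlobalMod94.OpenJS
open Fermat.Agent.S55.ESRep20 Fermat.Agent.S55.ESKummer20
open Fermat.Agent.S55.S1Limit41.Global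

variable {p : ℕ} [Fact p.Prime] (S : Finset Nat.Primes) (V : Subgroup GQ)
  (hV : IsOpenSub (globalLevels S) V) (hpS : pPrime p ∈ S)

/-- the root of unity underlying an element of `μ_p` (any restriction of `muRep p`) -/
def muVal (ζ : muRep p) : Qbarˣ :=
  ((Additive.toMul (show Additive ↥(rootsOfUnity p Qbar) from ζ) : ↥(rootsOfUnity p Qbar)) : Qbarˣ)

theorem muVal_pow (ζ : muRep p) : muVal ζ ^ p = 1 :=
  (mem_rootsOfUnity _ _).1
    (Additive.toMul (show Additive ↥(rootsOfUnity p Qbar) from ζ) : ↥(rootsOfUnity p Qbar)).2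

theorem muVal_injective : Function.Injective (muVal (p := p)) := by
  intro a b h
  have h1 : (Additive.toMul (show Additive ↥(rootsOfUnity p Qbar) from a) :
      ↥(rootsOfUnity p Qbar)) = Additive.toMul (show Additive ↥(rootsOfUnity p Qbar) from b) :=
    Subtype.ext h
  exact h1

/-- the element of `μ_p` with a given underlying root of unity -/
def muOf (u : Qbarˣ) (hu : u ^ p = 1) : muRep p :=
  (Additive.ofMul (⟨u, (mem_rootsOfUnity _ _).2 hu⟩ : ↥(rootsOfUnity p Qbar)) :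
    Additive ↥(rootsOfUnity p Qbar))

theorem muVal_muOf (u : Qbarˣ) (hu : u ^ p = 1) : muVal (muOf (p := p) u hu) = u := rfl

/-- **the explicit Kummer map at `w = (q, x)`**: `ζ ↦ ι_q (x ζ)` -/
theorem kumLin_apply (w : PlaceV S V hV) (ζ : ZW S V hV p w) :
    kumLin S V hV hpS w ζ = diagFun ((w.1 : Nat.Primes) : ℕ) (muVal (p := p) ζ) (w.2 : GQ) := rfl


section Diag

variable (q : ℕ) [Fact q.Prime]

theorem diagFun_pow (u : Qbarˣ) (n : ℕ) (x : GQ) :
    diagFun q (u ^ n) x = n • diagFun q u x := by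
  simp only [diagFun, map_pow]
  rfl

theorem diagFun_injective (x : GQ) : Function.Injective (fun u : Qbarˣ => diagFun q u x) := by
  intro u v h
  have h1 : padicEmbedding q (x (u : Qbar)) = padicEmbedding q (x (v : Qbar)) := by
    rw [← diagFun_val, ← diagFun_val]
    exact congrArg (fun e : (localUnits q) =>
      ((Additive.toMul e : (PadicAlgCl q)ˣ) : PadicAlgCl q)) h
  have h2 := (padicEmbedding q).toRingHom.injective h1
  exact Units.ext ((x : Qbar ≃ₐ[ℚ] Qbar).injective h2)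

/-- the `p`-torsion of `ℚ̄_qˣ` is the image of `μ_p(ℚ̄)` under `ι_q ∘ x` -/
theorem exists_diagFun_eq (p : ℕ) [Fact p.Prime] (x : GQ) (e : localUnits q) (he : p • e = 0) :
    ∃ u : Qbarˣ, u ^ p = 1 ∧ diagFun q u x = e := by
  haveI : NeZero p := ⟨(Fact.out : p.Prime).ne_zero⟩
  obtain ⟨ζ, hζ⟩ := exists_primitiveRoot p
  have hinj : Function.Injective (fun u : Qbarˣ =>
      (Additive.toMul (diagFun q u x) : (PadicAlgCl q)ˣ)) := fun u v h =>
    diagFun_injective q x (congrArg Additive.ofMul h)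
  let f : Qbarˣ →* (PadicAlgCl q)ˣ :=
    (Units.map ((padicEmbedding q : Qbar →ₐ[ℚ] PadicAlgCl q) : Qbar →* PadicAlgCl q)).comp
      (Units.map ((x : Qbar ≃ₐ[ℚ] Qbar) : Qbar →* Qbar))
  have hf : ∀ u, f u = (Additive.toMul (diagFun q u x) : (PadicAlgCl q)ˣ) := fun _ => rfl
  have hfinj : Function.Injective f := fun u v h => hinj (by simpa [hf] using h)
  have hprim : IsPrimitiveRoot (f ζ) p := hζ.map_of_injective hfinj
  have hu : (Additive.toMul e : (PadicAlgCl q)ˣ) ^ p = 1 := congrArg Additive.toMul he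
  obtain ⟨n, -, hn⟩ := hprim.eq_pow_of_mem_rootsOfUnity ((mem_rootsOfUnity _ _).2 hu)
  refine ⟨ζ ^ n, ?_, ?_⟩
  · rw [← pow_mul, mul_comm, pow_mul, hζ.pow_eq_one, one_pow]
  · apply Additive.toMul.injective
    show f (ζ ^ n) = _
    rw [map_pow]
    exact hn

end Diag

/-! ### the local Kummer sequence at the place `w` -/

/-- multiplication by `p` on `ℚ̄_qˣ` -/
noncomputable def pwW (p : ℕ) (w : PlaceV S V hV) :
    (Ax (rS S w.1) (AS S w.1) V (w.2 : GQ)) →ₗ[ℤ] (Ax (rS S w.1) (AS S w.1) V (w.2 : GQ)) where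
  toFun e := p • e
  map_add' a b := smul_add p a b
  map_smul' c e := smul_comm p c e

theorem pwW_apply (w : PlaceV S V hV) (e : Ax (rS S w.1) (AS S w.1) V (w.2 : GQ)) :
    pwW S V hV p w e = p • e := rfl

theorem kumLin_injective (w : PlaceV S V hV) : Function.Injective (kumLin S V hV hpS w) := by
  intro a b h
  have h' : diagFun ((w.1 : Nat.Primes) : ℕ) (muVal (p := p) a) (w.2 : GQ) =
      diagFun ((w.1 : Nat.Primes) : ℕ) (muVal (p := p) b) (w.2 : GQ) := h
  exact muVal_injective (diagFun_injective _ _ h')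

/-- **the local Kummer sequence at `w`**: `0 → μ_p → ℚ̄_qˣ -p→ ℚ̄_qˣ → 0` over `G_w` -/
theorem shortExact_kumLin (w : PlaceV S V hV) :
    ShortExact (A := ZW S V hV p w) (B := Ax (rS S w.1) (AS S w.1) V (w.2 : GQ))
      (C := Ax (rS S w.1) (AS S w.1) V (w.2 : GQ)) (kumLin S V hV hpS w) (pwW S V hV p w) where
  equivariant_left := kumLin_equivariant S V hV hpS w
  equivariant_right := fun g e => by
    show p • _ = (Ax (rS S w.1) (AS S w.1) V (w.2 : GQ)).ρ g (p • e)
    rw [map_nsmul]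
  injective := kumLin_injective S V hV hpS w
  surjective := fun e => by
    obtain ⟨e', he'⟩ := RecipLoc69.Hloc.Om_divisible w.1.1 p (Fact.out : p.Prime).ne_zero e
    exact ⟨e', he'⟩
  exact := fun e => by
    rw [Set.mem_range]
    show p • e = 0 ↔ _
    constructor
    · intro he
      obtain ⟨u, hu, hue⟩ := exists_diagFun_eq ((w.1 : Nat.Primes) : ℕ) p (w.2 : GQ) e he
      exact ⟨muOf u hu, hue⟩
    · rintro ⟨ζ, rfl⟩
      show p • diagFun ((w.1 : Nat.Primes) : ℕ) (muVal (p := p) ζ) (w.2 : GQ) = 0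
      rw [← diagFun_pow, muVal_pow]
      exact congrFun (diagFun_one _) _

/-- `ℚ̄_qˣ` is a smooth `G_w`-module -/
theorem isSmooth_unitsW (w : PlaceV S V hV) :
    (𝒱S S V w.1 (w.2 : GQ)).IsSmooth (Ax (rS S w.1) (AS S w.1) V (w.2 : GQ)) :=
  LevelStr.IsSmooth.res (RecipLoc69.Hloc.isSmooth_Om w.1.1) _

/-- **Hilbert 90 over an open subgroup of `G_q`** (generic form): `H¹(G_w, ℚ̄_qˣ) = 0` -/
theorem H1_unitsW_eq_zero' (q : ℕ) [Fact q.Prime] (V : Subgroup GQ) (x : GQ)
    (c : (MainOpen.levelsW q V x).H1 (MainOpen.unitsW q V x)) : c = 0 := by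
  obtain ⟨z, rfl⟩ := Submodule.Quotient.mk_surjective _ c
  obtain ⟨hcoc, hconst⟩ := ((MainOpen.levelsW q V x).mem_Z₁_iff _ _).1 z.2
  rw [LevelStr.isConst₁_comap_iff] at hconst
  obtain ⟨U₀, hU₀, hconst⟩ := hconst
  obtain ⟨U₁, ⟨_, F, hF, rfl⟩, rfl⟩ := hU₀
  haveI := hF
  have hcoc' := (mem_cocycles₁_iff _).1 hcoc
  obtain ⟨y₀, hy₀⟩ := LocalH90.localH90 q (MainOpen.Gw q V x).subtype ⊤
    (z : ↥(MainOpen.Gw q V x) → localUnits q) F
    (fun g s hs => hconst g s hs)
    (fun s t _ _ => hcoc' s t)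
  show (MainOpen.levelsW q V x).H1π _ z = 0
  rw [LevelStr.H1π_eq_zero_iff]
  refine ⟨y₀, ?_⟩
  funext s
  rw [d₀₁_hom_apply]
  exact hy₀ s trivial

/-- **Hilbert 90 at the place `w`**: `H¹(G_w, ℚ̄_qˣ) = 0` -/
theorem H1_unitsW_eq_zero (w : PlaceV S V hV)
    (c : (𝒱S S V w.1 (w.2 : GQ)).H1 (Ax (rS S w.1) (AS S w.1) V (w.2 : GQ))) : c = 0 :=
  H1_unitsW_eq_zero' ((w.1 : Nat.Primes) : ℕ) V (w.2 : GQ) c

/-- **(K3) the Kummer map at the place `w` is injective** (= the binder `hκ` of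
`S1Limit41.Global.sha2_iffV` / `range_loc_iffV`) -/
theorem kumW_injective (w : PlaceV S V hV) : Function.Injective (kumW S V hV hpS w) := by
  rw [injective_iff_map_eq_zero]
  intro y hy
  obtain ⟨c, rfl⟩ := ((shortExact_kumLin S V hV hpS w).exact_δ₁_H2map (𝒱S S V w.1 (w.2 : GQ))
    (isSmooth_unitsW S V hV w) y).1 hy
  rw [H1_unitsW_eq_zero S V hV w c, map_zero]

end Fermat.Agent.S55.KummerSq32
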