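/-
S55 / 46-KUMMER-SQUARE (helper32), part (K4): the two halves of (S1) over an open subgroup
`V ≤ G_ℚ` (helper41 `S1Limit41.Global.sha2_iffV` / `range_loc_iffV`) with ALL local inputs
discharged at the places `PlaceV S V hV` of helper94's `OpenJS`:
`κ := kumW`, `locZ :=` restriction along `twHom`, `locJ := locW`, `hκ := kumW_injective`,
`hcomm := hcomm`, `hJ1 := H1_JSp_eq_zero`, `hJ2 := locW_jointly_injective`.
-/
import Fermat.Agent.S55.KummerSq32.Inj
import Fermat.Agent.S55.GlobalMod94.H1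

set_option autoImplicit false
set_option linter.style.haveILetI false
set_option linter.unusedSectionVars false

open CategoryTheory groupCohomology ExtCitation

namespace Fermat.Agent.S55.KummerSq32

open Fermat.Agent.S55.Profin15 Fermat.Agent.S55.Profin15.LevelStr
open Fermat.Agent.S55.CD3 Fermat.Agent.S55.CS79.Smooth Fermat.Agent.S55.Idele73
open Fermat.Agent.S55.Idele73.Basic
open Fermat.Agent.S55.JSH2_64 Fermat.Agent.S55.GlobalMod94.Generic
open Fermat.Agent.S55.GlobalMod94.OpenDatum Fermat.Agent.S55.GlobalMod94.JS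
open Fermat.Agent.S55.GlobalMod94.OpenJS
open Fermat.Agent.S55.ESRep20 Fermat.Agent.S55.ESKummer20
open Fermat.Agent.S55.S1Limit41.Global Fermat.Agent.S55.S1Limit41.H1Cofinal
open Fermat.Agent.S55.ClassLimit72

variable {p : ℕ} [Fact p.Prime] (S : Finset Nat.Primes) (V : Subgroup GQ)
  (hV : IsOpenSub (globalLevels S) V) (hpS : pPrime p ∈ S)

/-- `H²(G_w, μ_p)` is killed by `p` -/
theorem nsmul_YZ_eq_zero (w : PlaceV S V hV) (ξ : YZ S V hV p w) : p • ξ = 0 := by
  obtain ⟨c, rfl⟩ := Submodule.Quotient.mk_surjective _ ξ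
  rw [← Submodule.Quotient.mk_smul]
  have hc : p • c = 0 := by
    apply Subtype.ext
    funext t
    show p • ((c : _ → ZW S V hV p w) t) = 0
    have := muVal_pow (p := p) ((c : _ → ZW S V hV p w) t)
    exact congrArg Additive.ofMul (Subtype.ext this)
  rw [hc]
  rfl

section Class

variable {C Cl : Rep.{0} ℤ GQ41}
  {φ : @LinearMap ℤ ℤ _ _ (RingHom.id ℤ) (CSp S) C _ _ (CSp S).hV2 C.hV2}
  {ψ : @LinearMap ℤ ℤ _ _ (RingHom.id ℤ) C Cl _ _ C.hV2 Cl.hV2}

/-- **(K4a) kernel half of (S1) over `V`, all local inputs discharged**: a class of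
`H²(V, μ_p)` vanishes at all places above `V` iff it is a Kummer class `δ(H¹(V, E_S))`. -/
theorem sha2_iff_placeV
    (hCl' : ShortExact (A := CSp S) (B := C) (C := Cl) φ ψ) (hC : (globalLevels S).IsSmooth C)
    (hCl : IsPrimeToP p Cl) (hfin : FiniteLevelH1 (globalLevels S) p C V)
    (x : (levV S V hV).H2 (ZV V p)) :
    (∀ w : PlaceV S V hV, (hcontS S V hV w.1 (w.2 : GQ)).res₂ (ZV V p) x = 0) ↔
      x ∈ LinearMap.range ((kummerV S V hpS).δ₁ (levV S V hV) (EV_isSmooth S V hV)) :=
  @sha2_iffV p _ S V hV C Cl φ ψ (PlaceV S V hV) _ (fun w => YZ S V hV p w)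
    (fun w => BrW S V hV w) (fun _ => inferInstance) (fun _ => inferInstance)
    (fun w => kumW S V hV hpS w) (fun w => locZ S V hV p w)
    (fun w => (locW S V hV w).toAddMonoidHom) hpS hCl' hC hCl hfin
    (fun y => GlobalMod94.H1.H1_JSp_eq_zero S V hV y)
    (fun w => kumW_injective S V hV hpS w) (fun w a => hcomm S V hV hpS w a)
    (fun y _ h => locW_jointly_injective S V hV y (fun w => h w)) x

/-- **(K4b) cokernel half of (S1) over `V`, all Kummer inputs discharged**: a family of local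
classes `ξ w ∈ H²(G_w, μ_p)` comes from `H²(V, μ_p)` iff the sum of its invariants vanishes.
Remaining binders: the local invariants `inv w` on `Br_w`, `invC` with reciprocity `hrecC` and
injectivity `hinj` on `p`-primary classes, and `hJsurj` (helper94 `jside`). -/
theorem range_loc_iff_placeV {T : Type*} [AddCommGroup T]
    (hCl' : ShortExact (A := CSp S) (B := C) (C := Cl) φ ψ) (hC : (globalLevels S).IsSmooth C)
    (hCl : IsPrimeToP p Cl) (hfin : FiniteLevelH1 (globalLevels S) p C V)
    (inv : ∀ w : PlaceV S V hV, BrW S V hV w →+ T)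
    (invC : (levV S V hV).H2 (Rep.res V.subtype C) →+ T)
    (hrecC : ∀ y : (levV S V hV).H2 (JV S V),
      invC ((levV S V hV).H2map
        (resLin (A := CSp S) (B := C) V.subtype φ ∘ₗ
          resLin (A := JSp S) (B := CSp S) V.subtype (πCS S).hom.toLinearMap)
        ((ideleV S V (nonempty_of_mem S hpS)).equivariant_right.comp
          (hCl'.res V.subtype).equivariant_left) y) =
        ∑ w, inv w ((locW S V hV w).toAddMonoidHom y))
    (hinj : ∀ (y : (levV S V hV).H2 (Rep.res V.subtype C)) (n : ℕ),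
      p ^ n • y = 0 → invC y = 0 → y = 0)
    (hJsurj : ∀ η : ∀ w : PlaceV S V hV, BrW S V hV w, (∀ w, p • η w = 0) →
      ∃ y : (levV S V hV).H2 (JV S V), p • y = 0 ∧
        ∀ w, (locW S V hV w).toAddMonoidHom y = η w)
    (ξ : ∀ w : PlaceV S V hV, YZ S V hV p w) :
    (∃ x : (levV S V hV).H2 (ZV V p),
        ∀ w, (hcontS S V hV w.1 (w.2 : GQ)).res₂ (ZV V p) x = ξ w) ↔
      ∑ w, inv w (kumW S V hV hpS w (ξ w)) = 0 :=
  @range_loc_iffV p _ S V hV C Cl φ ψ (PlaceV S V hV) _ (fun w => YZ S V hV p w)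
    (fun w => BrW S V hV w) (fun _ => inferInstance) (fun _ => inferInstance) T _
    (fun w => kumW S V hV hpS w) (fun w => locZ S V hV p w)
    (fun w => (locW S V hV w).toAddMonoidHom) hpS hCl' hC hCl hfin inv invC
    (fun w ξ => nsmul_YZ_eq_zero S V hV w ξ)
    (fun w => kumW_injective S V hV hpS w) (fun w a => hcomm S V hV hpS w a)
    hrecC hinj hJsurj ξ

end Class

end Fermat.Agent.S55.KummerSq32
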