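/-
S55 / 46-P6-PLACEV (helper32): the named arithmetic inputs `S1_67.P6Inst.LevelDatum` of (P6) at
a level `U` FROM THE DATA INDEXED BY THE PLACES `PlaceV S V hV` (helper94 `OpenJS`), `V = U`:
the orbit section is built from helper94's representatives `RS` (`orbSectOfRepr`), the local
Kummer maps are `KummerSq32.kumW` transported by helper84's `TwConj84.twH2`.
-/
import Fermat.Agent.S55.KummerSq32.Sha
import Fermat.Agent.S55.KummerSq32.OrbRepr
import Fermat.Agent.S55.TwConj84.Transport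
import Fermat.Agent.S55.S1_67.P6Inst

set_option autoImplicit false
set_option linter.style.haveILetI false
set_option linter.unusedSectionVars false

open CategoryTheory groupCohomology Module ExtCitation

namespace Fermat.Agent.S55.KummerSq32

open Fermat.Agent.S55.Profin15 Fermat.Agent.S55.Profin15.LevelStr
open Fermat.Agent.S55.ShapiroLevel32 Fermat.Agent.S55.P6Transport82
open Fermat.Agent.S55.CD3 Fermat.Agent.S55.Idele73 Fermat.Agent.S55.Idele73.Basic
open Fermat.Agent.S55.JSH2_64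
open Fermat.Agent.S55.GlobalMod94.OpenDatum Fermat.Agent.S55.GlobalMod94.JS
open Fermat.Agent.S55.ESRep20 Fermat.Agent.S55.ESKummer20
open Fermat.Agent.S55.S1Limit41.Global
open Fermat.Agent.S55.S1_67.P6Inst
open Fermat.Agent.S55.QZ33
open Fermat.Agent.S55.Contract34
open Fermat.Agent.S55.GlobalMod94 (OpenJS.PlaceV OpenJS.RS OpenJS.isRepr_RS OpenJS.BrW OpenJS.locW
  OpenJS.locW_jointly_injective OpenJS.hcontS)

variable {p : ℕ} [Fact p.Prime] {S : Finset Nat.Primes} {U : Subgroup GQ} [U.Normal]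
  (hU : U ∈ (globalLevels S).levels)

/-- the orbit sections attached to helper94's representatives `RS` -/
noncomputable def τRS (q : ↥S) : OrbSect ((QuotientGroup.mk' U).comp (rS S q)) :=
  orbSectOfRepr (QuotientGroup.mk' U) (QuotientGroup.mk'_surjective U) (rS S q)
    (OpenJS.RS S (VU U) (hker_mk hU) q) (OpenJS.isRepr_RS S (VU U) (hker_mk hU) q)

/-- the lifts of the orbit representatives: the inverses of the elements of `RS` -/
noncomputable def tRS (q : ↥S) (ρ : (τRS hU q).R) : GQ :=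
  tOfRepr (QuotientGroup.mk' U) (QuotientGroup.mk'_surjective U) (rS S q)
    (OpenJS.RS S (VU U) (hker_mk hU) q) (OpenJS.isRepr_RS S (VU U) (hker_mk hU) q) ρ

lemma mk_tRS (q : ↥S) (ρ : (τRS hU q).R) : QuotientGroup.mk' U (tRS hU q ρ) = (ρ : GQ ⧸ U) :=
  π_tOfRepr _ _ _ _ _ ρ

noncomputable instance (q : ↥S) : Fintype (τRS hU q).R := by
  unfold τRS
  infer_instance

/-- the places above `U`: orbit representatives ↔ helper94's `PlaceV` -/
noncomputable def placeEquiv :
    (Σ q : ↥S, (τRS hU q).R) ≃ OpenJS.PlaceV S (VU U) (hker_mk hU) :=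
  Equiv.sigmaCongrRight fun q =>
    (reprEquiv (QuotientGroup.mk' U) (QuotientGroup.mk'_surjective U) (rS S q)
      (OpenJS.RS S (VU U) (hker_mk hU) q) (OpenJS.isRepr_RS S (VU U) (hker_mk hU) q)).symm


variable (hpS : pPrime p ∈ S)

/-- the place of `PlaceV` attached to `w = ⟨q, ρ⟩` -/
noncomputable abbrev plc (w : Σ q : ↥S, (τRS hU q).R) : OpenJS.PlaceV S (VU U) (hker_mk hU) :=
  placeEquiv hU w

/-- the local Kummer map in the conjugate-family shape: `twH2` (helper84) followed by `kumW` -/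
noncomputable def κRS (w : Σ q : ↥S, (τRS hU q).R) :
    (locLev hU w.1).H2 (Rep.res (cj (τRS hU) (tRS hU) w) (ZV (VU U) p)) →+
      OpenJS.BrW S (VU U) (hker_mk hU) (plc hU w) :=
  (kumW S (VU U) (hker_mk hU) hpS (plc hU w)).comp
    (TwConj84.twH2 (hrS S w.1) (hker_mk hU) ((plc hU w).2 : GQ) (ZV (VU U) p)).toAddMonoidHom

theorem κRS_injective (w : Σ q : ↥S, (τRS hU q).R) : Function.Injective (κRS hU hpS w) :=
  (kumW_injective S (VU U) (hker_mk hU) hpS (plc hU w)).comp
    (TwConj84.twH2 (hrS S w.1) (hker_mk hU) ((plc hU w).2 : GQ) (ZV (VU U) p)).injective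

theorem κRS_res₂ (w : Σ q : ↥S, (τRS hU q).R)
    (x : (levV S (VU U) (hker_mk hU)).H2 (ZV (VU U) p)) :
    κRS hU hpS w ((hcj (τRS hU) (tRS hU) hU w).res₂ (ZV (VU U) p) x) =
      (OpenJS.locW S (VU U) (hker_mk hU) (plc hU w)).toAddMonoidHom
        ((levV S (VU U) (hker_mk hU)).H2map _
          (ideleV S (VU U) (nonempty_of_mem S hpS)).equivariant_left
          ((levV S (VU U) (hker_mk hU)).H2map _ (kummerV S (VU U) hpS).equivariant_left x)) := by
  rw [← hcomm S (VU U) (hker_mk hU) hpS (plc hU w) x]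
  show kumW S (VU U) (hker_mk hU) hpS (plc hU w)
    (TwConj84.twH2 (hrS S w.1) (hker_mk hU) ((plc hU w).2 : GQ) (ZV (VU U) p) _) = _
  congr 1
  exact TwConj84.twH2_res₂ (hrS S w.1) (hker_mk hU) ((plc hU w).2 : GQ) (ZV (VU U) p) x


/-- transport of a dependent family along an equivalence of index types -/
lemma exists_pi_of_equiv {α β : Type} (e : α ≃ β) (B : β → Type) (η : ∀ a, B (e a)) :
    ∃ η' : ∀ b, B b, ∀ a, η' (e a) = η a :=
  ⟨Equiv.piCongrLeft B e η, fun a => Equiv.piCongrLeft_apply_apply B e η a⟩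

lemma forall_of_equiv {α β : Type} (e : α ≃ β) (P : β → Prop) (h : ∀ a, P (e a)) : ∀ b, P b :=
  fun b => e.apply_symm_apply b ▸ h (e.symm b)

/-- joint surjectivity transported along an equivalence of index types -/
lemma jsurj_of_equiv {α β : Type} (e : α ≃ β) (B : β → Type) (instB : ∀ b, AddCommGroup (B b))
    {Y : Type} [AddCommGroup Y] (loc : ∀ b, Y →+ B b) (p : ℕ)
    (h : ∀ η' : ∀ b, B b, (∀ b, p • η' b = 0) → ∃ y : Y, p • y = 0 ∧ ∀ b, loc b y = η' b)
    (η : ∀ a, B (e a)) (hη : ∀ a, p • η a = 0) :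
    ∃ y : Y, p • y = 0 ∧ ∀ a, loc (e a) y = η a := by
  obtain ⟨η', hη'⟩ := exists_pi_of_equiv e B η
  obtain ⟨y, hy, hyη⟩ := h η' (forall_of_equiv e (fun b => p • η' b = 0) (fun a => by
    show p • η' (e a) = 0
    rw [hη' a]
    exact hη a))
  exact ⟨y, hy, fun a => (hyη (e a)).trans (hη' a)⟩

/-- **(P6) named inputs at the level `U`, from the data indexed by the places `PlaceV`**:
helper67's `LevelDatum` for the orbit data `(τRS, tRS)` built from helper94's representatives. -/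
theorem levelDatum_of_placeV
    (inv : ∀ w : OpenJS.PlaceV S (VU U) (hker_mk hU), OpenJS.BrW S (VU U) (hker_mk hU) w →+ QZ)
    (invC : (levV S (VU U) (hker_mk hU)).H2 (CV S (VU U)) →+ QZ)
    (hJsurj : ∀ η : ∀ w : OpenJS.PlaceV S (VU U) (hker_mk hU), OpenJS.BrW S (VU U) (hker_mk hU) w,
      (∀ w, p • η w = 0) →
      ∃ y : (levV S (VU U) (hker_mk hU)).H2 (JV S (VU U)), p • y = 0 ∧
        ∀ w, OpenJS.locW S (VU U) (hker_mk hU) w y = η w)
    (hinv_inj : ∀ (w : OpenJS.PlaceV S (VU U) (hker_mk hU))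
      (b : OpenJS.BrW S (VU U) (hker_mk hU) w), p • b = 0 → inv w b = 0 → b = 0)
    (hinv_surj : ∀ (w : OpenJS.PlaceV S (VU U) (hker_mk hU)) (s : QZ), p • s = 0 →
      ∃ b : OpenJS.BrW S (VU U) (hker_mk hU) w, p • b = 0 ∧ inv w b = s)
    (hC1 : ∀ c : (levV S (VU U) (hker_mk hU)).H1 (CV S (VU U)), p • c = 0 → c = 0)
    (hinjC : ∀ c : (levV S (VU U) (hker_mk hU)).H2 (CV S (VU U)), p • c = 0 → invC c = 0 → c = 0)
    (hrec : ∀ y : (levV S (VU U) (hker_mk hU)).H2 (JV S (VU U)),
      invC ((levV S (VU U) (hker_mk hU)).H2map _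
        (ideleV S (VU U) (nonempty_of_mem S hpS)).equivariant_right y) =
        ∑ w : OpenJS.PlaceV S (VU U) (hker_mk hU),
          inv w (OpenJS.locW S (VU U) (hker_mk hU) w y)) :
    LevelDatum p S hpS U hU (τRS hU) (tRS hU) := by
  let B : OpenJS.PlaceV S (VU U) (hker_mk hU) → Type :=
    fun w' => OpenJS.BrW S (VU U) (hker_mk hU) w'
  let instB : ∀ w', AddCommGroup (B w') := fun _ => inferInstance
  refine ⟨fun w => B (plc hU w), fun w => instB (plc hU w),
    κRS hU hpS, fun w => (OpenJS.locW S (VU U) (hker_mk hU) (plc hU w)).toAddMonoidHom,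
    fun w => inv (plc hU w), invC, κRS_injective hU hpS, κRS_res₂ hU hpS, ?_, ?_,
    fun w b => hinv_inj (plc hU w) b, fun w s => hinv_surj (plc hU w) s, hC1, hinjC, ?_⟩
  · -- hJ2
    intro y _ h
    refine OpenJS.locW_jointly_injective S (VU U) (hker_mk hU) y (fun w' => ?_)
    obtain ⟨w, rfl⟩ := (placeEquiv hU).surjective w'
    exact h w
  · -- hJsurj
    intro η hη
    exact jsurj_of_equiv (placeEquiv hU) B instB
      (fun w' => (OpenJS.locW S (VU U) (hker_mk hU) w').toAddMonoidHom) p hJsurj η hη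
  · -- hrec
    intro y
    rw [hrec y]
    exact (Equiv.sum_comp (placeEquiv hU)
      (fun w' => inv w' (OpenJS.locW S (VU U) (hker_mk hU) w' y))).symm

/-- **(P6) `Contract34.GlobalCokerDim p S` from the limit formation datum in `PlaceV` form**
at every level `U` on which `μ_p` is trivial. -/
theorem globalCokerDim_of_placeV
    (h : ∀ (U : Subgroup GQ) [U.Normal] (hU : U ∈ (globalLevels S).levels),
      (∀ s ∈ U, (mu p).ρ s = 1) →
      ∃ (inv : ∀ w : OpenJS.PlaceV S (VU U) (hker_mk hU),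
          OpenJS.BrW S (VU U) (hker_mk hU) w →+ QZ)
        (invC : (levV S (VU U) (hker_mk hU)).H2 (CV S (VU U)) →+ QZ),
        (∀ η : ∀ w : OpenJS.PlaceV S (VU U) (hker_mk hU), OpenJS.BrW S (VU U) (hker_mk hU) w,
          (∀ w, p • η w = 0) →
          ∃ y : (levV S (VU U) (hker_mk hU)).H2 (JV S (VU U)), p • y = 0 ∧
            ∀ w, OpenJS.locW S (VU U) (hker_mk hU) w y = η w) ∧
        (∀ (w : OpenJS.PlaceV S (VU U) (hker_mk hU))
          (b : OpenJS.BrW S (VU U) (hker_mk hU) w), p • b = 0 → inv w b = 0 → b = 0) ∧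
        (∀ (w : OpenJS.PlaceV S (VU U) (hker_mk hU)) (s : QZ), p • s = 0 →
          ∃ b : OpenJS.BrW S (VU U) (hker_mk hU) w, p • b = 0 ∧ inv w b = s) ∧
        (∀ c : (levV S (VU U) (hker_mk hU)).H1 (CV S (VU U)), p • c = 0 → c = 0) ∧
        (∀ c : (levV S (VU U) (hker_mk hU)).H2 (CV S (VU U)),
          p • c = 0 → invC c = 0 → c = 0) ∧
        (∀ y : (levV S (VU U) (hker_mk hU)).H2 (JV S (VU U)),
          invC ((levV S (VU U) (hker_mk hU)).H2map _
            (ideleV S (VU U) (nonempty_of_mem S hpS)).equivariant_right y) =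
            ∑ w : OpenJS.PlaceV S (VU U) (hker_mk hU),
              inv w (OpenJS.locW S (VU U) (hker_mk hU) w y))) :
    Contract34.GlobalCokerDim p S := by
  refine globalCokerDim_of_datum hpS (fun U _ hU hmu => ?_)
  obtain ⟨inv, invC, h1, h2, h3, h4, h5, h6⟩ := h U hU hmu
  exact ⟨τRS hU, inferInstance, tRS hU, mk_tRS hU,
    levelDatum_of_placeV hU hpS inv invC h1 h2 h3 h4 h5 h6⟩

end Fermat.Agent.S55.KummerSq32
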